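import Fermat.Agent.S33.SM.Conc.Defs
import Fermat.Agent.GS.Inst.Wq
import Fermat.Agent.GS.Inst.Ind
import Fermat.Agent.LP.Dep.Inst

/-!
# S33-SM, concrete layer: the axiom `dense` of `Ops`: `𝒪_N = 𝒪_{M0} + ϖ 𝒪_N`

Input (`ResHyp`, = `GS.Inst.res_of_mem`, file `GS/Inst/Data.lean`): the statement on `𝒪_∞ ∩ w⁻¹ 𝒪_∞`.

Paper proof.  `𝒪 = gaussO R (p * M0)`, `j = incl ⟨jqModC L, _⟩`, `y = yF L p M0 = j(q ^ p)`,
`w j = y`, `w y = j` (`IsWq.onF1`, `IsWq.map_yF`, `IsWq.invol`).  `J = jqModC 𝕜`.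
* `t0 := y - j ^ p` has reduction `qExpand p J - J ^ p = 0` (`gredFun_qExpand`, `gredFun_baseFn'`,
  `baseFn_jqModC`, `qExpand_baseFn` / `Ind_pow_char`), so `t0 / ϖ ∈ 𝒪` (`div_mem_gaussO_iff` or
  `gredFun_eq_zero_iff`).
* `w t0 = j - y ^ p` has reduction `J - J ^ (p ^ 2) ≠ 0` (orders `-1 ≠ -p ^ 2`, `Ind_order_pow`), so
  it is a unit of `𝒪`; so is `D := w t0 + t0`, and `w D = D`.
* `θ := w t0 / D`: `θ - 1 = - t0 / D ∈ ϖ 𝒪`, `w θ = t0 / D ∈ ϖ 𝒪`.
* For `x ∈ 𝒪` take `m` with `ϖ ^ m * w x ∈ 𝒪` (`GS.Inst.exists_pow_mul_mem`); `z := θ ^ m * x`: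
  `z ∈ 𝒪`, `w z = (w θ / ϖ) ^ m * (ϖ ^ m * w x) ∈ 𝒪`, `z - x = (θ ^ m - 1) x ∈ ϖ 𝒪`.  Apply `ResHyp`.
-/

set_option autoImplicit false
set_option synthInstance.maxHeartbeats 400000

noncomputable section

namespace Fermat.Agent.S33.SM

open Fermat.Agent.GR Fermat.Agent.GR.E Fermat.Agent.GR.D.Vert Fermat.Agent.LP.Dep ModularCurve

variable {L : Type} [Field L] {R : ValuationSubring L} [IsDiscreteValuationRing R]
variable {p M0 : ℕ} [Fact p.Prime]

local notation "𝕜" => IsLocalRing.ResidueField R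

/-- the residue field of `𝒪_∞` is the residue field of level `M0`, on `𝒪_∞ ∩ w⁻¹ 𝒪_∞`
(`GS.Inst.res_of_mem`). -/
def ResHyp (R : ValuationSubring L) [IsDiscreteValuationRing R] (p M0 : ℕ) (ϖ : R)
    (w : FF L (p * M0) ≃ₐ[L] FF L (p * M0)) : Prop :=
  ∀ z ∈ gaussO R (p * M0), w z ∈ gaussO R (p * M0) →
    ∃ f ∈ gaussO R M0, (z - GS.Inst.incl L p M0 f) / algebraMap R (FF L (p * M0)) ϖ
      ∈ gaussO R (p * M0)

theorem Dense_isGInt_j : IsGInt R (jqModC L) := by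
  rw [← GS.Inst.baseFn_jqModC L]
  exact GS.Inst.isGInt_baseFn _

theorem Dense_gredFun_j : gredFun R (jqModC L) = jqModC 𝕜 := by
  rw [← GS.Inst.baseFn_jqModC L, GS.Inst.gredFun_baseFn', GS.Inst.baseFn_jqModC]

theorem Dense_isGInt_y : IsGInt R (qExpand L p (jqModC L)) :=
  GS.Inst.isGInt_qExpand p Dense_isGInt_j

theorem Dense_gredFun_y [CharP 𝕜 p] : gredFun R (qExpand L p (jqModC L)) = jqModC 𝕜 ^ p := by
  rw [GS.Inst.gredFun_qExpand p Dense_isGInt_j, Dense_gredFun_j,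
    GS.Inst.Ind_pow_char p (Fact.out : p.Prime)]

theorem Dense_J_ne (k : Type) [Field k] : jqModC k - (jqModC k ^ p) ^ p ≠ 0 := by
  intro h0
  have h5 := congrArg HahnSeries.order (sub_eq_zero.mp h0)
  rw [← pow_mul, GS.Inst.Ind_order_pow] at h5
  have h6 := GS.Inst.Ind_order_pow k 1
  rw [pow_one] at h6
  rw [h6] at h5
  have hq2 := (Fact.out : p.Prime).two_le
  push_cast at h5
  nlinarith

/-- an element which is `≡ 1` at `𝒪_∞` and `≡ 0` at `w⁻¹ 𝒪_∞`. -/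
theorem exists_theta [CharP 𝕜 p] {ϖ : R} (hϖ : Irreducible ϖ)
    {w : FF L (p * M0) ≃ₐ[L] FF L (p * M0)} (hw : GS.Inst.IsWq L p M0 w) :
    ∃ θ : FF L (p * M0), CongP ϖ (gaussO R (p * M0)) 1 θ 1 ∧
      CongP ϖ (gaussO R (p * M0)) 1 (w θ) 0 := by
  set j : FF L (p * M0) := GS.Inst.incl L p M0 ⟨jqModC L, jqModC_mem_full L M0⟩ with hj
  set y : FF L (p * M0) := GS.Inst.yF L p M0 with hy
  have cj : ((j : FF L (p * M0)) : LaurentSeries L) = jqModC L := GS.Inst.coe_incl _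
  have cy : ((y : FF L (p * M0)) : LaurentSeries L) = qExpand L p (jqModC L) := GS.Inst.coe_yF
  have hwj : w j = y := Subtype.ext (by
    rw [cy]
    exact hw.onF1 ⟨jqModC L, jqModC_mem_full L M0⟩)
  have hwy : w y = j := Subtype.ext (by rw [cj]; exact hw.map_yF)
  set t0 : FF L (p * M0) := y - j ^ p with ht0
  set t1 : FF L (p * M0) := j - y ^ p with ht1
  have hwt0 : w t0 = t1 := by rw [ht0, map_sub, map_pow, hwy, hwj]
  have hwt1 : w t1 = t0 := by rw [ht1, map_sub, map_pow, hwy, hwj]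
  have ct0 : ((t0 : FF L (p * M0)) : LaurentSeries L) =
      qExpand L p (jqModC L) - jqModC L ^ p := by
    rw [ht0, AddSubgroupClass.coe_sub, IntermediateField.coe_pow, cj, cy]
  have ct1 : ((t1 : FF L (p * M0)) : LaurentSeries L) =
      jqModC L - qExpand L p (jqModC L) ^ p := by
    rw [ht1, AddSubgroupClass.coe_sub, IntermediateField.coe_pow, cj, cy]
  have hIj : IsGInt R (jqModC L) := Dense_isGInt_j
  have hIy : IsGInt R (qExpand L p (jqModC L)) := Dense_isGInt_y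
  have ht0mem : t0 ∈ gaussO R (p * M0) := by
    rw [mem_gaussO, ct0]
    exact Inst_isGInt_sub hIy (hIj.pow p)
  have ht1mem : t1 ∈ gaussO R (p * M0) := by
    rw [mem_gaussO, ct1]
    exact Inst_isGInt_sub hIj (hIy.pow p)
  have hr0 : gredFun R ((t0 : FF L (p * M0)) : LaurentSeries L) = 0 := by
    rw [ct0, Inst_gredFun_sub hIy (hIj.pow p), Dense_gredFun_y, gredFun_pow hIj, Dense_gredFun_j,
      sub_self]
  have hr1 : gredFun R ((t1 : FF L (p * M0)) : LaurentSeries L) =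
      jqModC 𝕜 - (jqModC 𝕜 ^ p) ^ p := by
    rw [ct1, Inst_gredFun_sub hIj (hIy.pow p), gredFun_pow hIy, Dense_gredFun_y, Dense_gredFun_j]
  set D : FF L (p * M0) := t1 + t0 with hD
  have hDmem : D ∈ gaussO R (p * M0) := (gaussO R (p * M0)).add_mem _ _ ht1mem ht0mem
  have hrD : gredFun R ((D : FF L (p * M0)) : LaurentSeries L) ≠ 0 := by
    rw [hD, IntermediateField.coe_add, gredFun_add (mem_gaussO.1 ht1mem) (mem_gaussO.1 ht0mem),
      hr0, hr1, add_zero]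
    exact Dense_J_ne 𝕜
  have hD0 : D ≠ 0 := by
    intro h0
    apply hrD
    rw [h0, IntermediateField.coe_zero, gredFun_zero]
  have hDinv : D⁻¹ ∈ gaussO R (p * M0) := by
    rw [mem_gaussO, IntermediateField.coe_inv]
    exact (mem_gaussO.1 hDmem).inv hrD
  have hwD : w D = D := by rw [hD, map_add, hwt0, hwt1, add_comm]
  have hdiv : t0 / algebraMap R (FF L (p * M0)) ϖ ∈ gaussO R (p * M0) :=
    (GS.Inst.div_mem_gaussO_iff (p * M0) hϖ ht0mem).2 hr0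
  refine ⟨t1 / D, ?_, ?_⟩
  · unfold CongP
    have h1 : (t1 / D - 1) / algebraMap R (FF L (p * M0)) ϖ ^ 1 =
        -((t0 / algebraMap R (FF L (p * M0)) ϖ) * D⁻¹) := by
      have : t1 / D - 1 = -(t0 * D⁻¹) := by
        rw [div_eq_mul_inv, eq_comm, ← sub_eq_zero]
        have : t1 = D - t0 := by rw [hD]; ring
        rw [this]
        field_simp
        ring
      rw [this, pow_one]
      ring
    rw [h1]
    exact (gaussO R (p * M0)).neg_mem _ ((gaussO R (p * M0)).mul_mem _ _ hdiv hDinv)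
  · unfold CongP
    have h1 : (w (t1 / D) - 0) / algebraMap R (FF L (p * M0)) ϖ ^ 1 =
        (t0 / algebraMap R (FF L (p * M0)) ϖ) * D⁻¹ := by
      rw [map_div₀, hwt1, hwD, sub_zero, pow_one]
      ring
    rw [h1]
    exact (gaussO R (p * M0)).mul_mem _ _ hdiv hDinv

theorem dense_gaussO [CharP 𝕜 p] {ϖ : R} (hϖ : Irreducible ϖ)
    {w : FF L (p * M0) ≃ₐ[L] FF L (p * M0)} (hw : GS.Inst.IsWq L p M0 w)
    (hres : ResHyp R p M0 ϖ w) {x : FF L (p * M0)} (hx : x ∈ gaussO R (p * M0)) :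
    ∃ x0 ∈ gaussO R M0, CongP ϖ (gaussO R (p * M0)) 1 x (GS.Inst.incl L p M0 x0) := by
  obtain ⟨θ, hθ1, hθ0⟩ := exists_theta hϖ hw
  obtain ⟨m, hm⟩ := GS.Inst.exists_pow_mul_mem (p * M0) hϖ (w x)
  unfold CongP at hθ1 hθ0 ⊢
  unfold ResHyp at hres
  rw [pow_one] at hθ1 hθ0
  simp only [pow_one]
  rw [sub_zero] at hθ0
  have G := gaussRing R (p * M0) hϖ
  have hP0 : algebraMap R (FF L (p * M0)) ϖ ≠ 0 := G.ne_zero
  have hPmem : algebraMap R (FF L (p * M0)) ϖ ∈ gaussO R (p * M0) := by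
    rw [mem_gaussO, coe_algebraMap_C]
    exact Inst_isGInt_C R ϖ
  generalize algebraMap R (FF L (p * M0)) ϖ = P at *
  have hθmem : θ ∈ gaussO R (p * M0) := by
    have : θ = 1 + P * ((θ - 1) / P) := by field_simp; ring
    rw [this]
    exact (gaussO R (p * M0)).add_mem _ _ (gaussO R (p * M0)).one_mem
      ((gaussO R (p * M0)).mul_mem _ _ hPmem hθ1)
  have hz : θ ^ m * x ∈ gaussO R (p * M0) :=
    (gaussO R (p * M0)).mul_mem _ _ ((gaussO R (p * M0)).pow_mem hθmem m) hx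
  have hwz : w (θ ^ m * x) ∈ gaussO R (p * M0) := by
    have : w (θ ^ m * x) = (w θ / P) ^ m * (P ^ m * w x) := by
      rw [map_mul, map_pow, div_pow]
      field_simp
    rw [this]
    exact (gaussO R (p * M0)).mul_mem _ _ ((gaussO R (p * M0)).pow_mem hθ0 m) hm
  obtain ⟨f, hf, hfz⟩ := hres _ hz hwz
  refine ⟨f, hf, ?_⟩
  have h1 : (x - GS.Inst.incl L p M0 f) / P =
      (θ ^ m * x - GS.Inst.incl L p M0 f) / P -
        ((θ - 1) / P) * (∑ i ∈ Finset.range m, θ ^ i) * x := by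
    have h2 := mul_geom_sum θ m
    have h3 : ((θ - 1) / P) * (∑ i ∈ Finset.range m, θ ^ i) = (θ ^ m - 1) / P := by
      rw [← h2]; ring
    rw [h3]
    ring
  rw [h1]
  exact (gaussO R (p * M0)).sub_mem hfz ((gaussO R (p * M0)).mul_mem _ _
    ((gaussO R (p * M0)).mul_mem _ _ hθ1
      ((gaussO R (p * M0)).toSubring.sum_mem fun i _ => (gaussO R (p * M0)).pow_mem hθmem i)) hx)

end Fermat.Agent.S33.SM
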