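import Fermat.Agent.S33.SM.Conc.Defs
import Fermat.Agent.LP.Dep.Inst

/-!
# S33-SM, concrete layer: the axiom `nu` of `Ops`

Apply `LP.Dep.exists_C_of_qExpand_closed` to the set `{gredFun R f : f ∈ Y}` of series over the
residue field `𝕜` of `R`: `congP_one_gaussO_iff` translates congruences modulo `ϖ` into equalities of
reductions, `gredFun_qExpand` computes the reduction of `Φ f`, the reduction of a constant `r : R` is
`HahnSeries.C (residue r)`, and every element of `𝕜` is the residue of some `r : R`.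
-/

set_option autoImplicit false
set_option synthInstance.maxHeartbeats 400000

noncomputable section

namespace Fermat.Agent.S33.SM

open Fermat.Agent.GR Fermat.Agent.GR.E Fermat.Agent.GR.D.Vert Fermat.Agent.LP.Dep ModularCurve

variable {L : Type} [Field L] {R : ValuationSubring L} [IsDiscreteValuationRing R]
variable {p M0 : ℕ} [Fact p.Prime]

local notation "𝕜" => IsLocalRing.ResidueField R

/-- the reduction of a constant. -/
theorem gredFun_algebraMap (N : ℕ) (r : R) :
    gredFun R ((algebraMap R (FF L N) r : FF L N) : LaurentSeries L)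
      = HahnSeries.C (IsLocalRing.residue R r) := by
  rw [coe_algebraMap_C]
  exact Inst_gredFun_C R r

theorem nu_gaussO {ϖ : R} (hϖ : Irreducible ϖ) (Y : Set (FF L M0)) (hY : ∀ f ∈ Y, f ∈ gaussO R M0)
    (h : ∀ f' ∈ Y, ∃ f ∈ Y, ∃ r : R, CongP ϖ (gaussO R (p * M0)) 1 (GS.Inst.incl L p M0 f')
      (PhiFF L p M0 f + algebraMap R (FF L (p * M0)) r)) :
    ∀ f ∈ Y, ∃ r : R, CongP ϖ (gaussO R M0) 1 f (algebraMap R (FF L M0) r) := by
  have hp : p.Prime := Fact.out
  have hbase : ∀ (N : ℕ) (r : R), algebraMap R (FF L N) r ∈ gaussO R N := by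
    intro N r
    rw [mem_gaussO, coe_algebraMap_C]
    exact Inst_isGInt_C R r
  have key := exists_C_of_qExpand_closed (k := 𝕜) p hp.one_lt
    ((fun f : FF L M0 => gredFun R (f : LaurentSeries L)) '' Y) ?_
  · intro f hf
    obtain ⟨c, hc⟩ := key _ ⟨f, hf, rfl⟩
    obtain ⟨r, rfl⟩ := IsLocalRing.residue_surjective c
    refine ⟨r, ?_⟩
    rw [congP_one_gaussO_iff R M0 hϖ (hY f hf) (hbase M0 r), gredFun_algebraMap]
    exact hc
  · rintro _ ⟨f', hf', rfl⟩
    obtain ⟨f, hf, r, hc⟩ := h f' hf'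
    refine ⟨_, ⟨f, hf, rfl⟩, IsLocalRing.residue R r, ?_⟩
    have hf'G : IsGInt R (f' : LaurentSeries L) := mem_gaussO.1 (hY f' hf')
    have hfG : IsGInt R (f : LaurentSeries L) := mem_gaussO.1 (hY f hf)
    have h1 : GS.Inst.incl L p M0 f' ∈ gaussO R (p * M0) := by
      rw [mem_gaussO, GS.Inst.coe_incl]
      exact hf'G
    have h2 : PhiFF L p M0 f ∈ gaussO R (p * M0) := by
      rw [mem_gaussO, coe_PhiFF]
      exact GS.Inst.isGInt_qExpand p hfG
    rw [congP_one_gaussO_iff R (p * M0) hϖ h1 (add_mem h2 (hbase _ r)), GS.Inst.coe_incl,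
      IntermediateField.coe_add, gredFun_add (mem_gaussO.1 h2) (mem_gaussO.1 (hbase _ r)),
      coe_PhiFF, GS.Inst.gredFun_qExpand p hfG, gredFun_algebraMap] at hc
    exact hc

end Fermat.Agent.S33.SM
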