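import Fermat.Agent.S33.SM.Conc.Defs
import Fermat.Agent.LP.Dep.Inst
import Fermat.Agent.LP.Dep.ContractR

/-!
# S33-SM, concrete layer: the axioms `U_small`, `U_Fr` of `Ops`

* `U_small`: `LP.Dep.isGInt_normT_sub_one` with `i' = i + 1` (`i + 1 ≤ p i` since `p ≥ 2`, `i ≥ 1`;
  `i + 1 ≤ e + i` with `e = 1`: `ϖ ∣ p` because `p` lies in the maximal ideal) + `congP_gaussO_iff`.
* `U_Fr`: for `y : LaurentSeries R`: `redL (normT p ζ y) = normT p 1 (redL y)` (`coeffMap_normT`; the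
  residue of `ζ` is `1` since `ζ ^ p = 1` in characteristic `p`) `= coeffMap frobenius (redL y)`
  (`GR.normT_one_char`); `redL (coeffMap φ y) = coeffMap frobenius (redL y)` (as in the proof of
  `GS.Inst.gredFun_qExpand_coeffMap_of_frob`).  For `x = y / s` use `gredFun_eq`, `normT_mul`.
-/

set_option autoImplicit false
set_option synthInstance.maxHeartbeats 400000

noncomputable section

namespace Fermat.Agent.S33.SM

open Fermat.Agent.GR Fermat.Agent.GR.E Fermat.Agent.GR.D.Vert Fermat.Agent.LP.Dep ModularCurve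

variable {L : Type} [Field L] {R : ValuationSubring L} [IsDiscreteValuationRing R]
variable {p M0 : ℕ} [Fact p.Prime]

local notation "𝕜" => IsLocalRing.ResidueField R

theorem FieldsU_natCast_mem [CharP 𝕜 p] : (p : R) ∈ IsLocalRing.maximalIdeal R := by
  rw [← IsLocalRing.residue_eq_zero_iff, map_natCast]
  exact CharP.cast_eq_zero 𝕜 p

theorem FieldsU_redL_normT [CharP 𝕜 p] (ζ : Rˣ) (hζ : ζ ^ p = 1) (f : LaurentSeries R) :
    S28.redL R (normT p ζ f) = coeffMap (frobenius 𝕜 p) (S28.redL R f) := by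
  have hζ1 : Units.map (IsLocalRing.residue R : R →* 𝕜) ζ = 1 := by
    apply Units.ext
    apply frobenius_inj 𝕜 p
    rw [frobenius_def, frobenius_def, Units.val_one, one_pow, ← Units.val_pow_eq_pow_val,
      ← map_pow, hζ, map_one, Units.val_one]
  rw [coeffMap_normT, hζ1, normT_one_char]

/-- the reduction of `normT p ζ x` is the Frobenius twist of the reduction of `x`. -/
theorem gredFun_normT [CharP 𝕜 p] (ζ : Rˣ) (hζ : IsPrimitiveRoot ζ p) {x : LaurentSeries L}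
    (hx : IsGInt R x) :
    gredFun R (normT p (Units.map (algebraMap R L : R →* L) ζ) x)
      = coeffMap (frobenius 𝕜 p) (gredFun R x) := by
  obtain ⟨s, y, hs, h⟩ := hx
  have hpR : (p : R) ∈ IsLocalRing.maximalIdeal R := FieldsU_natCast_mem
  have hζL := ContractR_isPrimitiveRoot (L := L) hζ
  rw [gredFun_eq (s := normT p ζ s) (y := normT p ζ y)
      (redL_normT_ne_zero p hpR ζ hζ.pow_eq_one hs)
      (by rw [coeffMap_normT, coeffMap_normT, ← normT_mul p _ hζL, h]),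
    gredFun_eq hs h, FieldsU_redL_normT ζ hζ.pow_eq_one, FieldsU_redL_normT ζ hζ.pow_eq_one,
    map_div₀]

/-- the reduction of `coeffMap φ x` is the Frobenius twist of the reduction of `x`. -/
theorem gredFun_coeffMap_of_frob [CharP 𝕜 p] (φ : L ≃+* L) (hφR : ∀ x, φ x ∈ R ↔ x ∈ R)
    (hφ : ∀ x ∈ R, φ x - x ^ p ∈ R.nonunits) {x : LaurentSeries L} (hx : IsGInt R x) :
    gredFun R (coeffMap (φ : L →+* L) x) = coeffMap (frobenius 𝕜 p) (gredFun R x) := by
  obtain ⟨s, y, hs, hy⟩ := hx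
  have key : ∀ f : LaurentSeries R, S28.redL R (coeffMap (GS.Inst.RedS_act φ hφR) f) =
      coeffMap (frobenius 𝕜 p) (S28.redL R f) := by
    intro f
    ext n
    simp only [coeffMap_coeff]
    rw [frobenius_def, ← map_pow, ← sub_eq_zero, ← map_sub, IsLocalRing.residue_eq_zero_iff,
      ← ValuationSubring.coe_mem_nonunits_iff]
    exact hφ _ (f.coeff n).2
  rw [gredFun_eq (GS.Inst.RedS_redL_act_ne_zero φ hφR hs) (GS.Inst.RedS_eq_act φ hφR hy),
    gredFun_eq hs hy, key, key, map_div₀]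

theorem congP_UFF_one [CharP 𝕜 p] (ι : L →+* ℂ) [NeZero (p * M0)] {ϖ : R} (hϖ : Irreducible ϖ)
    (ζ : Rˣ) (hζ : IsPrimitiveRoot ζ p)
    (hζL : IsPrimitiveRoot (Units.map (algebraMap R L : R →* L) ζ) p) (x : FF L M0) (i : ℕ)
    (hi : 0 < i) (h : CongP ϖ (gaussO R M0) i x 1) :
    CongP ϖ (gaussO R (p * M0)) (i + 1) (UFF ι (Units.map (algebraMap R L : R →* L) ζ) hζL x) 1 := by
  have hpR : (p : R) ∈ IsLocalRing.maximalIdeal R := FieldsU_natCast_mem
  have hp2 : 2 ≤ p := (Fact.out : p.Prime).two_le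
  rw [congP_gaussO_iff] at h ⊢
  rw [coe_UFF]
  have he : ϖ ^ 1 ∣ (p : R) := by
    rw [pow_one]
    rw [hϖ.maximalIdeal_eq, Ideal.mem_span_singleton] at hpR
    exact hpR
  have h1 : i + 1 ≤ p * i := by nlinarith
  exact isGInt_normT_sub_one p hpR ζ hζ hϖ he h1 (by omega) h

theorem congP_UFF_mapFFEquiv [CharP 𝕜 p] (ι : L →+* ℂ) [NeZero (p * M0)] {ϖ : R}
    (hϖ : Irreducible ϖ) (ζ : Rˣ) (hζ : IsPrimitiveRoot ζ p)
    (hζL : IsPrimitiveRoot (Units.map (algebraMap R L : R →* L) ζ) p)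
    (φ : L ≃+* L) (hφR : ∀ x, φ x ∈ R ↔ x ∈ R) (hφ : ∀ x ∈ R, φ x - x ^ p ∈ R.nonunits)
    {x : FF L M0} (hx : x ∈ gaussO R M0) :
    CongP ϖ (gaussO R (p * M0)) 1 (UFF ι (Units.map (algebraMap R L : R →* L) ζ) hζL x)
      (GS.Inst.incl L p M0 (GS.mapFFEquiv φ M0 x)) := by
  have hpR : (p : R) ∈ IsLocalRing.maximalIdeal R := FieldsU_natCast_mem
  have hx' : IsGInt R (x : LaurentSeries L) := mem_gaussO.mp hx
  have h1 : UFF ι (Units.map (algebraMap R L : R →* L) ζ) hζL x ∈ gaussO R (p * M0) := by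
    rw [mem_gaussO, coe_UFF]
    exact isGInt_normT p hpR ζ hζ hx'
  have h2 : GS.Inst.incl L p M0 (GS.mapFFEquiv φ M0 x) ∈ gaussO R (p * M0) := by
    rw [mem_gaussO, GS.Inst.coe_incl, GS.coe_mapFFEquiv]
    exact GS.Inst.RedS_isGInt_coeffMap φ hφR hx'
  rw [congP_one_gaussO_iff R (p * M0) hϖ h1 h2, coe_UFF, GS.Inst.coe_incl, GS.coe_mapFFEquiv,
    gredFun_normT ζ hζ hx', gredFun_coeffMap_of_frob φ hφR hφ hx']

end Fermat.Agent.S33.SM
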