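import Fermat.Agent.S33.SM.Conc.FieldsA
import Fermat.Agent.S33.SM.Conc.FieldsNu
import Fermat.Agent.S33.SM.Conc.FieldsU
import Fermat.Agent.S33.SM.Conc.Dense
import Fermat.Agent.S33.SM.GAbs
import Fermat.Agent.S33.SM.SAbs

/-!
# S33-SM, concrete layer: the context `Ctx`, its `Ops`, and theorems (G), (S) over `(L, R)`
-/

set_option autoImplicit false
set_option synthInstance.maxHeartbeats 400000

noncomputable section

namespace Fermat.Agent.S33.SM

open Fermat.Agent.GR Fermat.Agent.GR.E Fermat.Agent.GR.D.Vert Fermat.Agent.LP.Dep ModularCurve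

/-- Everything we need over `(L, R)`. -/
structure Ctx (L : Type) [Field L] (R : ValuationSubring L) [IsDiscreteValuationRing R]
    (p M0 : ℕ) [Fact p.Prime] where
  ι : L →+* ℂ
  ne : NeZero (p * M0)
  charP : CharP (IsLocalRing.ResidueField R) p
  ϖ : R
  irr : Irreducible ϖ
  ζ : Rˣ
  prim : IsPrimitiveRoot ζ p
  e1 : ℕ
  assoc : Associated ((ζ : R) - 1) (ϖ ^ e1)
  φ : L ≃+* L
  φ_mem : ∀ x, φ x ∈ R ↔ x ∈ R
  φ_frob : ∀ x ∈ R, φ x - x ^ p ∈ R.nonunits
  w : FF L (p * M0) ≃ₐ[L] FF L (p * M0)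
  isWq : GS.Inst.IsWq L p M0 w
  res : ResHyp R p M0 ϖ w

namespace Ctx

variable {L : Type} [Field L] {R : ValuationSubring L} [IsDiscreteValuationRing R]
variable {p M0 : ℕ} [Fact p.Prime] (X : Ctx L R p M0)

/-- `ζ` as a unit of `L`. -/
def ζL : Lˣ := Units.map (algebraMap R L : R →* L) X.ζ

theorem primL : IsPrimitiveRoot X.ζL p :=
  X.prim.map_of_injective (Units.map_injective (f := (algebraMap R L : R →* L))
    (IsFractionRing.injective R L))

theorem prim' : IsPrimitiveRoot (X.ζ : R) p := IsPrimitiveRoot.coe_units_iff.mpr X.prim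

include X in
theorem p_mem : (p : R) ∈ IsLocalRing.maximalIdeal R := by
  haveI := X.charP
  rw [← IsLocalRing.residue_eq_zero_iff, map_natCast]
  exact CharP.cast_eq_zero _ p

/-- the operators. -/
def ops : Ops L X.ϖ (gaussO R M0) (gaussO R (p * M0)) p :=
  haveI := X.ne
  haveI := X.charP
  { inc := GS.Inst.incl L p M0
    Φ := PhiFF L p M0
    Fr := GS.mapFFEquiv X.φ M0
    U := UFF X.ι X.ζL X.primL
    inc_mem := incl_mem_gaussO_iff
    Φ_mem := fun _ hx => PhiFF_mem_gaussO hx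
    Fr_mem := mapFFEquiv_mem_gaussO_iff X.φ X.φ_mem
    Fr_L := fun c => ⟨_, mapFFEquiv_algebraMap X.φ c⟩
    Fr_symm_L := fun c => ⟨_, mapFFEquiv_symm_algebraMap X.φ c⟩
    Φ_Fr := fun _ hx => congP_PhiFF_mapFFEquiv X.irr X.φ X.φ_mem X.φ_frob hx
    dense := fun _ hx => dense_gaussO X.irr X.isWq X.res hx
    nu := nu_gaussO X.irr
    U_L := fun c => ⟨_, UFF_algebraMap X.ι X.ζL X.primL c⟩
    U_small := congP_UFF_one X.ι X.irr X.ζ X.prim X.primL
    U_Fr := fun _ hx =>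
      congP_UFF_mapFFEquiv X.ι X.irr X.ζ X.prim X.primL X.φ X.φ_mem X.φ_frob hx }

theorem setting (N : ℕ) : DepSetting X.ϖ (gaussO R N) p X.e1 ((X.ζ : R) - 1) :=
  depSetting_gaussO R N p X.p_mem (X.ζ : R) X.prim' X.irr X.assoc

/-- (G) over `(L, R)`. -/
theorem G_conc (hp2 : p ≠ 2) {ι : Type*} (s : ι → ι) (u : ι → FF L M0)
    (hlink : ∀ z, X.ops.Linked X.e1 (u z) (u (s z)))
    (hdep : ∀ z, Dep L X.ϖ (gaussO R M0) p 1 (u z)) (z : ι) :
    Dep L X.ϖ (gaussO R M0) p (p * X.e1) (u z) :=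
  X.ops.G_abs (X.setting M0) (X.setting (p * M0)) hp2 s u hlink hdep z

/-- (S) over `(L, R)`. -/
theorem S_conc (hp2 : p ≠ 2) (he1 : X.e1 = 1) {u : FF L M0} (hu0 : u ≠ 0) (h : X.ops.Killed u) :
    Dep L X.ϖ (gaussO R M0) p (p * X.e1 + 1) u :=
  X.ops.S_abs (X.setting M0) (X.setting (p * M0)) hp2 he1 hu0 h

end Ctx

end Fermat.Agent.S33.SM
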