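import Fermat.Agent.S33.SM.Ops
import Fermat.Agent.GS.Inst.RedS
import Fermat.Agent.GS.Inst.RedV
import Fermat.Agent.GR.B.KummerMain
import Fermat.Agent.GR.C.MainQbar

/-!
# S33-SM, concrete layer over a field `L` with a DVR `R`: the operators `inc`, `Φ`, `Fr`, `U`

`F0 = FF L M0`, `F = FF L (p * M0)`.  Definitions (and the membership lemma for `normT`).
-/

set_option autoImplicit false
set_option synthInstance.maxHeartbeats 400000

noncomputable section

namespace Fermat.Agent.S33.SM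

open Fermat.Agent.GR Fermat.Agent.GR.E ModularCurve

variable (L : Type) [Field L] (p M0 : ℕ) [NeZero p]

/-- `Φ : f ↦ f(q ^ p)` from level `M0` to level `p * M0`. -/
def PhiFF : FF L M0 →ₐ[L] FF L (p * M0) :=
  { GT.EMB.Level_expHom L p M0 (p * M0) dvd_rfl with
    commutes' := GT.EMB.Level_expHom_algebraMap L p M0 (p * M0) dvd_rfl }

variable {L p M0}

@[simp] theorem coe_PhiFF (x : FF L M0) :
    ((PhiFF L p M0 x : FF L (p * M0)) : LaurentSeries L) = qExpand L p (x : LaurentSeries L) := rfl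

/-- `U_p` preserves the function field of level `p * M0` over any field that embeds in `ℂ`. -/
theorem normT_mem_FF_of_hom (ι : L →+* ℂ) [NeZero (p * M0)] (ζ : Lˣ) (hζ : IsPrimitiveRoot ζ p)
    {u : LaurentSeries L} (hu : u ∈ FF L (p * M0)) : normT p ζ u ∈ FF L (p * M0) := by
  apply C.mem_FF_of_coeffMap_hom ι
  rw [coeffMap_normT]
  exact B.normT_mem_FF p (Dvd.intro M0 rfl) _
    (hζ.map_of_injective (Units.map_injective (f := (ι : L →* ℂ)) ι.injective))
    (C.coeffMap_mem_FF (p * M0) ι hu)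

/-- `U = normT p ζ` from level `M0` to level `p * M0`. -/
def UFF (ι : L →+* ℂ) [NeZero (p * M0)] (ζ : Lˣ) (hζ : IsPrimitiveRoot ζ p) :
    FF L M0 →* FF L (p * M0) where
  toFun x := ⟨normT p ζ (x : LaurentSeries L),
    normT_mem_FF_of_hom ι ζ hζ (GS.Inst.FF_le L p M0 x.2)⟩
  map_one' := Subtype.ext (by
    have h := normT_C p ζ (1 : L)
    simpa using h)
  map_mul' x y := Subtype.ext (normT_mul p ζ hζ _ _)

@[simp] theorem coe_UFF (ι : L →+* ℂ) [NeZero (p * M0)] (ζ : Lˣ) (hζ : IsPrimitiveRoot ζ p)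
    (x : FF L M0) :
    ((UFF ι ζ hζ x : FF L (p * M0)) : LaurentSeries L) = normT p ζ (x : LaurentSeries L) := rfl

end Fermat.Agent.S33.SM
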