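import Fermat.Agent.S33.SM.Conc.Defs
import Fermat.Agent.LP.Dep.Inst

/-!
# S33-SM, concrete layer: the easy axioms of `Ops` for `FF L M0 ⊆ FF L (p * M0)`

Tools: `GS/Inst/RedQ.lean` (`isGInt_qExpand`, `gredFun_qExpand`), `GS/Inst/RedS.lean`
(`isGInt_coeffMap_iff`, `gredFun_qExpand_coeffMap_of_frob`), `LP/Dep/Inst.lean`
(`congP_gaussO_iff`, `congP_one_gaussO_iff`), `GR/D/Vert/GaussO.lean` (`mem_gaussO`).
-/

set_option autoImplicit false
set_option synthInstance.maxHeartbeats 400000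

noncomputable section

namespace Fermat.Agent.S33.SM

open Fermat.Agent.GR Fermat.Agent.GR.E Fermat.Agent.GR.D.Vert Fermat.Agent.LP.Dep ModularCurve

variable {L : Type} [Field L] {R : ValuationSubring L} [IsDiscreteValuationRing R]
variable {p M0 : ℕ} [Fact p.Prime]

local notation "𝕜" => IsLocalRing.ResidueField R

theorem FieldsA_coe_algebraMap (N : ℕ) (c : L) :
    ((algebraMap L (FF L N) c : FF L N) : LaurentSeries L) = HahnSeries.C c := by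
  rw [IntermediateField.coe_algebraMap_apply, algebraMap_laurentSeries_eq_single]
  rfl

theorem incl_mem_gaussO_iff (x : FF L M0) :
    GS.Inst.incl L p M0 x ∈ gaussO R (p * M0) ↔ x ∈ gaussO R M0 := by
  rw [mem_gaussO, mem_gaussO, GS.Inst.coe_incl]

theorem PhiFF_mem_gaussO {x : FF L M0} (hx : x ∈ gaussO R M0) :
    PhiFF L p M0 x ∈ gaussO R (p * M0) := by
  rw [mem_gaussO, coe_PhiFF]
  exact GS.Inst.isGInt_qExpand p (mem_gaussO.mp hx)

theorem mapFFEquiv_mem_gaussO_iff (φ : L ≃+* L) (hφR : ∀ x, φ x ∈ R ↔ x ∈ R) (x : FF L M0) :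
    GS.mapFFEquiv φ M0 x ∈ gaussO R M0 ↔ x ∈ gaussO R M0 := by
  rw [mem_gaussO, mem_gaussO, GS.coe_mapFFEquiv]
  exact GS.Inst.isGInt_coeffMap_iff φ hφR _

theorem mapFFEquiv_algebraMap (φ : L ≃+* L) (c : L) :
    GS.mapFFEquiv φ M0 (algebraMap L (FF L M0) c) = algebraMap L (FF L M0) (φ c) := by
  apply Subtype.ext
  rw [GS.coe_mapFFEquiv, FieldsA_coe_algebraMap, FieldsA_coe_algebraMap, coeffMap_C]
  rfl

theorem mapFFEquiv_symm_algebraMap (φ : L ≃+* L) (c : L) :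
    (GS.mapFFEquiv φ M0).symm (algebraMap L (FF L M0) c) = algebraMap L (FF L M0) (φ.symm c) := by
  rw [RingEquiv.symm_apply_eq, mapFFEquiv_algebraMap, RingEquiv.apply_symm_apply]

/-- `Φ ∘ Fr` lifts the absolute Frobenius. -/
theorem congP_PhiFF_mapFFEquiv [CharP 𝕜 p] {ϖ : R} (hϖ : Irreducible ϖ) (φ : L ≃+* L)
    (hφR : ∀ x, φ x ∈ R ↔ x ∈ R) (hφ : ∀ x ∈ R, φ x - x ^ p ∈ R.nonunits) {x : FF L M0}
    (hx : x ∈ gaussO R M0) :
    CongP ϖ (gaussO R (p * M0)) 1 (PhiFF L p M0 (GS.mapFFEquiv φ M0 x))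
      (GS.Inst.incl L p M0 x ^ p) := by
  have h1 : PhiFF L p M0 (GS.mapFFEquiv φ M0 x) ∈ gaussO R (p * M0) :=
    PhiFF_mem_gaussO ((mapFFEquiv_mem_gaussO_iff φ hφR x).2 hx)
  have h2 : GS.Inst.incl L p M0 x ^ p ∈ gaussO R (p * M0) :=
    (gaussO R (p * M0)).pow_mem ((incl_mem_gaussO_iff x).2 hx) p
  rw [congP_one_gaussO_iff R (p * M0) hϖ h1 h2, coe_PhiFF, GS.coe_mapFFEquiv,
    IntermediateField.coe_pow, GS.Inst.coe_incl, gredFun_pow (mem_gaussO.mp hx)]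
  exact GS.Inst.gredFun_qExpand_coeffMap_of_frob p Fact.out φ hφR hφ (mem_gaussO.mp hx)

theorem UFF_algebraMap (ι : L →+* ℂ) [NeZero (p * M0)] (ζ : Lˣ) (hζ : IsPrimitiveRoot ζ p) (c : L) :
    UFF ι ζ hζ (algebraMap L (FF L M0) c) = algebraMap L (FF L (p * M0)) (c ^ p) := by
  apply Subtype.ext
  rw [coe_UFF, FieldsA_coe_algebraMap, FieldsA_coe_algebraMap, normT_C]

end Fermat.Agent.S33.SM
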